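import Mathlib

set_option autoImplicit false

namespace Fermat.Agent.Lib.TorsionCard

open Polynomial WeierstrassCurve WeierstrassCurve.Affine

section Identities

variable {F : Type*} [Field F] (W : WeierstrassCurve.Affine F)

/-- `P` is an affine point with `x`-coordinate `x`. -/
def HasXc (P : W.Point) (x : F) : Prop :=
  ∃ (y : F) (h : W.Nonsingular x y), P = Point.some x y h

variable {W}

lemma HasXc.ne_zero {P : W.Point} {x : F} (h : HasXc W P x) : P ≠ 0 := by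
  obtain ⟨y, hy, rfl⟩ := h
  exact Point.some_ne_zero hy

lemma HasXc.unique {P : W.Point} {x x' : F} (h : HasXc W P x) (h' : HasXc W P x') : x = x' := by
  obtain ⟨y, hy, rfl⟩ := h
  obtain ⟨y', hy', e⟩ := h'
  exact (Point.some.inj e).1

lemma hasXc_some {x y : F} (h : W.Nonsingular x y) : HasXc W (Point.some x y h) x :=
  ⟨y, h, rfl⟩

lemma HasXc.neg {P : W.Point} {x : F} (h : HasXc W P x) : HasXc W (-P) x := by
  obtain ⟨y, hy, rfl⟩ := h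
  exact ⟨_, _, Point.neg_some hy⟩

lemma HasXc.eq_or_eq_neg {P Q : W.Point} {x : F} (hP : HasXc W P x) (hQ : HasXc W Q x) :
    P = Q ∨ P = -Q := by
  obtain ⟨y, hy, rfl⟩ := hP
  obtain ⟨y', hy', rfl⟩ := hQ
  exact Point.X_eq_iff.mp rfl

lemma exists_hasXc_of_ne_zero {P : W.Point} (h : P ≠ 0) : ∃ x, HasXc W P x := by
  rcases P with _ | ⟨x, y, hxy⟩
  · exact absurd rfl h
  · exact ⟨x, y, hxy, rfl⟩

variable [DecidableEq F]

/-- Sum and product of the `x`-coordinates of `P + Q` and `P - Q`. -/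
theorem add_sub_X {x₁ y₁ x₂ y₂ : F} (h₁ : W.Nonsingular x₁ y₁) (h₂ : W.Nonsingular x₂ y₂)
    (hx : x₁ ≠ x₂) :
    ∃ (x₃ y₃ : F) (h₃ : W.Nonsingular x₃ y₃) (x₄ y₄ : F) (h₄ : W.Nonsingular x₄ y₄),
      Point.some x₁ y₁ h₁ + Point.some x₂ y₂ h₂ = Point.some x₃ y₃ h₃ ∧
      Point.some x₁ y₁ h₁ - Point.some x₂ y₂ h₂ = Point.some x₄ y₄ h₄ ∧
      (x₃ + x₄) * (x₁ - x₂) ^ 2 =
        2 * x₁ * x₂ * (x₁ + x₂) + W.b₂ * x₁ * x₂ + W.b₄ * (x₁ + x₂) + W.b₆ ∧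
      x₃ * x₄ * (x₁ - x₂) ^ 2 =
        x₁ ^ 2 * x₂ ^ 2 - W.b₄ * x₁ * x₂ - W.b₆ * (x₁ + x₂) - W.b₈ := by
  have e₁ := (W.equation_iff x₁ y₁).mp h₁.1
  have e₂ := (W.equation_iff x₂ y₂).mp h₂.1
  have hd : x₁ - x₂ ≠ 0 := sub_ne_zero.mpr hx
  have h₂' : W.Nonsingular x₂ (W.negY x₂ y₂) := (nonsingular_neg ..).mpr h₂
  refine ⟨_, _, nonsingular_add h₁ h₂ fun hxy => hx hxy.left, _, _,
    nonsingular_add h₁ h₂' fun hxy => hx hxy.left, Point.add_of_X_ne hx, ?_, ?_, ?_⟩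
  · rw [sub_eq_add_neg, Point.neg_some, Point.add_of_X_ne hx]
  · rw [slope_of_X_ne hx, slope_of_X_ne hx, addX, addX]
    simp only [WeierstrassCurve.b₂, WeierstrassCurve.b₄, WeierstrassCurve.b₆, negY]
    field_simp
    linear_combination 2 * e₁ + 2 * e₂
  · rw [slope_of_X_ne hx, slope_of_X_ne hx, addX, addX]
    simp only [WeierstrassCurve.b₄, WeierstrassCurve.b₆, WeierstrassCurve.b₈, negY]
    field_simp
    linear_combination
      (W.a₁^2*x₁*x₂ - W.a₁^2*x₂^2 + W.a₁*W.a₃*x₁ - W.a₁*W.a₃*x₂ + W.a₁*x₁*y₁ - 2*W.a₁*x₂*y₂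
        + 4*W.a₂*x₁*x₂ - W.a₂*x₁^2 - 2*W.a₂*x₂^2 + 2*x₁*x₂^2 + 2*x₁^2*x₂ - x₁^3 - 2*x₂^3
        + W.a₃*y₁ - 2*W.a₃*y₂ + W.a₄*x₁ + y₁^2 - 2*y₂^2 + W.a₆) * e₁ +
      (W.a₁^2*x₁*x₂ - W.a₁^2*x₁^2 - W.a₁*W.a₃*x₁ + W.a₁*W.a₃*x₂ + W.a₁*x₂*y₂ + 4*W.a₂*x₁*x₂
        - 4*W.a₂*x₁^2 - W.a₂*x₂^2 + 2*x₁*x₂^2 + 2*x₁^2*x₂ - 4*x₁^3 - x₂^3 + W.a₃*y₂
        - 2*W.a₄*x₁ + W.a₄*x₂ + y₂^2 - W.a₆) * e₂

/-- `HasXc` form of `add_sub_X`. -/
theorem hasXc_add_sub {P Q : W.Point} {x₁ x₂ : F} (hP : HasXc W P x₁) (hQ : HasXc W Q x₂)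
    (hx : x₁ ≠ x₂) :
    ∃ x₃ x₄ : F, HasXc W (P + Q) x₃ ∧ HasXc W (P - Q) x₄ ∧
      (x₃ + x₄) * (x₁ - x₂) ^ 2 =
        2 * x₁ * x₂ * (x₁ + x₂) + W.b₂ * x₁ * x₂ + W.b₄ * (x₁ + x₂) + W.b₆ ∧
      x₃ * x₄ * (x₁ - x₂) ^ 2 =
        x₁ ^ 2 * x₂ ^ 2 - W.b₄ * x₁ * x₂ - W.b₆ * (x₁ + x₂) - W.b₈ := by
  obtain ⟨y₁, h₁, rfl⟩ := hP
  obtain ⟨y₂, h₂, rfl⟩ := hQ
  obtain ⟨x₃, y₃, h₃, x₄, y₄, h₄, e₃, e₄, hs, hp⟩ := add_sub_X h₁ h₂ hx
  exact ⟨x₃, x₄, ⟨y₃, h₃, e₃⟩, ⟨y₄, h₄, e₄⟩, hs, hp⟩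

/-- The duplication formula on `x`-coordinates. -/
theorem hasXc_two_nsmul {P : W.Point} {x : F} (hP : HasXc W P x)
    (hx : 4 * x ^ 3 + W.b₂ * x ^ 2 + 2 * W.b₄ * x + W.b₆ ≠ 0) :
    ∃ x' : F, HasXc W (2 • P) x' ∧
      x' * (4 * x ^ 3 + W.b₂ * x ^ 2 + 2 * W.b₄ * x + W.b₆) =
        x ^ 4 - W.b₄ * x ^ 2 - 2 * W.b₆ * x - W.b₈ := by
  obtain ⟨y, hy, rfl⟩ := hP
  have heq := (W.equation_iff x y).mp hy.1
  have hB : 4 * x ^ 3 + W.b₂ * x ^ 2 + 2 * W.b₄ * x + W.b₆ = (y - W.negY x y) ^ 2 := by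
    simp only [WeierstrassCurve.b₂, WeierstrassCurve.b₄, WeierstrassCurve.b₆, negY]
    linear_combination (-4 : F) * heq
  have hD : y - W.negY x y ≠ 0 := by
    intro h0
    rw [hB, h0] at hx
    exact hx (by ring)
  have hne : y ≠ W.negY x y := sub_ne_zero.mp hD
  refine ⟨W.addX x x (W.slope x x y y), ⟨W.addY x x y (W.slope x x y y),
    nonsingular_add hy hy fun hxy => hne hxy.right, ?_⟩, ?_⟩
  · rw [two_nsmul, Point.add_self_of_Y_ne hne]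
  · rw [hB, slope_of_Y_ne rfl hne, addX]
    field_simp
    simp only [WeierstrassCurve.b₄, WeierstrassCurve.b₆, WeierstrassCurve.b₈, negY]
    linear_combination (-(W.a₁ ^ 2 + 4 * W.a₂ + 8 * x)) * heq

end Identities

section Exists

variable {F : Type*} [Field F] [IsAlgClosed F] (W : WeierstrassCurve.Affine F)

/-- Over an algebraically closed field of characteristic `≠ 2` every `x` is the `x`-coordinate
of a point of an elliptic curve. -/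
theorem exists_nonsingular [W.IsElliptic] (h2 : (2 : F) ≠ 0) (x : F) :
    ∃ y : F, W.Nonsingular x y := by
  obtain ⟨s, hs⟩ := IsAlgClosed.exists_eq_mul_self
    (4 * x ^ 3 + W.b₂ * x ^ 2 + 2 * W.b₄ * x + W.b₆)
  refine ⟨(s - W.a₁ * x - W.a₃) / 2, equation_iff_nonsingular.mp ?_⟩
  rw [equation_iff]
  simp only [WeierstrassCurve.b₂, WeierstrassCurve.b₄, WeierstrassCurve.b₆] at hs
  field_simp
  linear_combination (-1 : F) * hs

end Exists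

section Poly

variable {F : Type*} [Field F] (W : WeierstrassCurve.Affine F)

/-- The polynomial `4X³ + b₂X² + 2b₄X + b₆`. -/
noncomputable def psiSq : F[X] := C 4 * X ^ 3 + C W.b₂ * X ^ 2 + C (2 * W.b₄) * X + C W.b₆

/-- The polynomial `X⁴ - b₄X² - 2b₆X - b₈`. -/
noncomputable def phiTwo : F[X] := X ^ 4 - C W.b₄ * X ^ 2 - C (2 * W.b₆) * X - C W.b₈

@[simp] lemma eval_psiSq (x : F) :
    (psiSq W).eval x = 4 * x ^ 3 + W.b₂ * x ^ 2 + 2 * W.b₄ * x + W.b₆ := by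
  simp [psiSq]

@[simp] lemma eval_phiTwo (x : F) :
    (phiTwo W).eval x = x ^ 4 - W.b₄ * x ^ 2 - 2 * W.b₆ * x - W.b₈ := by
  simp [phiTwo]

/-- Numerator of `(u - x)²` for `u = A/B`. -/
noncomputable def g0 (A B : F[X]) : F[X] := (A - X * B) ^ 2

/-- Numerator of the sum relation. -/
noncomputable def g1 (A B : F[X]) : F[X] :=
  C 2 * X * A * (A + X * B) + C W.b₂ * X * A * B + C W.b₄ * (A + X * B) * B + C W.b₆ * B ^ 2

/-- Numerator of the product relation. -/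
noncomputable def g2 (A B : F[X]) : F[X] :=
  X ^ 2 * A ^ 2 - C W.b₄ * X * A * B - C W.b₆ * (A + X * B) * B - C W.b₈ * B ^ 2

lemma eval_g0 (A B : F[X]) (x : F) : (g0 A B).eval x = (A.eval x - x * B.eval x) ^ 2 := by
  simp [g0]

lemma eval_g1 (A B : F[X]) (x : F) : (g1 W A B).eval x =
    2 * x * A.eval x * (A.eval x + x * B.eval x) + W.b₂ * x * A.eval x * B.eval x
      + W.b₄ * (A.eval x + x * B.eval x) * B.eval x + W.b₆ * B.eval x ^ 2 := by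
  simp [g1]

lemma eval_g2 (A B : F[X]) (x : F) : (g2 W A B).eval x =
    x ^ 2 * A.eval x ^ 2 - W.b₄ * x * A.eval x * B.eval x
      - W.b₆ * (A.eval x + x * B.eval x) * B.eval x - W.b₈ * B.eval x ^ 2 := by
  simp [g2]

/-- A Bézout identity between `psiSq` and `phiTwo` with value `Δ`. -/
lemma bezout_eval (x : F) :
    (12 * x ^ 3 - W.b₂ * x ^ 2 - 10 * W.b₄ * x + W.b₂ * W.b₄ - 27 * W.b₆) *
        (4 * x ^ 3 + W.b₂ * x ^ 2 + 2 * W.b₄ * x + W.b₆) +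
      (-48 * x ^ 2 - 8 * W.b₂ * x + W.b₂ ^ 2 - 32 * W.b₄) *
        (x ^ 4 - W.b₄ * x ^ 2 - 2 * W.b₆ * x - W.b₈) = W.Δ := by
  simp only [WeierstrassCurve.Δ, WeierstrassCurve.b₂, WeierstrassCurve.b₄, WeierstrassCurve.b₆,
    WeierstrassCurve.b₈]
  ring

lemma not_both_zero (hΔ : W.Δ ≠ 0) (x : F)
    (h1 : 4 * x ^ 3 + W.b₂ * x ^ 2 + 2 * W.b₄ * x + W.b₆ = 0)
    (h2 : x ^ 4 - W.b₄ * x ^ 2 - 2 * W.b₆ * x - W.b₈ = 0) : False := by
  apply hΔ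
  rw [← bezout_eval W x, h1, h2]
  ring

lemma phiTwo_monic : (phiTwo W).Monic := by
  unfold phiTwo
  monicity!

lemma natDegree_phiTwo : (phiTwo W).natDegree = 4 := by
  unfold phiTwo
  compute_degree!

lemma natDegree_psiSq (h4 : (4 : F) ≠ 0) : (psiSq W).natDegree = 3 := by
  unfold psiSq
  compute_degree!

lemma leadingCoeff_psiSq (h4 : (4 : F) ≠ 0) : (psiSq W).leadingCoeff = 4 := by
  rw [leadingCoeff, natDegree_psiSq W h4]
  simp [psiSq]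

end Poly

section Degrees

variable {F : Type*} [Field F] (W : WeierstrassCurve.Affine F)

lemma g2_monic {A B : F[X]} {d : ℕ} (hA : A.Monic) (hdA : A.natDegree = d)
    (hdB : B.natDegree < d) :
    (g2 W A B).Monic ∧ (g2 W A B).natDegree = 2 * d + 2 := by
  have hlead : (X ^ 2 * A ^ 2 : F[X]).Monic := (monic_X_pow 2).mul (hA.pow 2)
  have hleadd : (X ^ 2 * A ^ 2 : F[X]).natDegree = 2 * d + 2 := by
    rw [Monic.natDegree_mul (monic_X_pow 2) (hA.pow 2), natDegree_X_pow, hA.natDegree_pow, hdA]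
    ring
  set R : F[X] := C W.b₄ * X * A * B + C W.b₆ * (A + X * B) * B + C W.b₈ * B ^ 2 with hR
  have hRd : R.natDegree < (X ^ 2 * A ^ 2 : F[X]).natDegree := by
    have : R.natDegree ≤ 2 * d := by
      rw [hR]
      compute_degree
      omega
    omega
  have e : g2 W A B = X ^ 2 * A ^ 2 - R := by rw [hR, g2]; ring
  have hdeg : R.degree < (X ^ 2 * A ^ 2 : F[X]).degree :=
    degree_lt_degree hRd
  refine ⟨?_, ?_⟩
  · rw [e]; exact hlead.sub_of_left hdeg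
  · rw [e, natDegree_sub_eq_left_of_natDegree_lt hRd, hleadd]

lemma sub_X_mul_props {A B : F[X]} {n : ℕ} (hA : A.Monic) (hdA : A.natDegree = n ^ 2)
    (hdB : B.natDegree + 1 = n ^ 2) (hlB : B.leadingCoeff = (n : F) ^ 2)
    (hne : (1 : F) - (n : F) ^ 2 ≠ 0) :
    (A - X * B).natDegree = n ^ 2 ∧ (A - X * B).leadingCoeff = 1 - (n : F) ^ 2 := by
  have hc : (A - X * B).coeff (n ^ 2) = 1 - (n : F) ^ 2 := by
    rw [coeff_sub, ← hdB, coeff_X_mul, ← leadingCoeff, hlB, hdB, ← hdA, ← leadingCoeff,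
      hA.leadingCoeff]
  have hle : (A - X * B).natDegree ≤ n ^ 2 := by
    compute_degree
    omega
  have hd := natDegree_eq_of_le_of_coeff_ne_zero hle (hc ▸ hne)
  exact ⟨hd, by rw [leadingCoeff, hd, hc]⟩

end Degrees

end Fermat.Agent.Lib.TorsionCard
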