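import Fermat.Agent.Lib.TorsionCard.Induction

set_option autoImplicit false

namespace Fermat.Agent.Lib.TorsionCard

open Polynomial WeierstrassCurve WeierstrassCurve.Affine

section XOf

variable {F : Type*} [Field F] (W : WeierstrassCurve.Affine F)

/-- The `x`-coordinate of a point (junk value `0` at the point at infinity). -/
def xOf : W.Point → F
  | .zero => 0
  | .some x _ _ => x

variable {W}

lemma HasXc.xOf_eq {P : W.Point} {x : F} (h : HasXc W P x) : xOf W P = x := by
  obtain ⟨y, hy, rfl⟩ := h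
  rfl

lemma hasXc_xOf {P : W.Point} (h : P ≠ 0) : HasXc W P (xOf W P) := by
  obtain ⟨x, hx⟩ := exists_hasXc_of_ne_zero h
  rwa [hx.xOf_eq]

lemma ne_neg_of_psiSq_ne_zero [DecidableEq F] {x y : F} (h : W.Nonsingular x y)
    (hx : 4 * x ^ 3 + W.b₂ * x ^ 2 + 2 * W.b₄ * x + W.b₆ ≠ 0) :
    Point.some x y h ≠ -Point.some x y h := by
  intro he
  rw [Point.neg_some] at he
  have hy : y = W.negY x y := (Point.some.inj he).2
  have heq := (W.equation_iff x y).mp h.1
  have hB : 4 * x ^ 3 + W.b₂ * x ^ 2 + 2 * W.b₄ * x + W.b₆ = (y - W.negY x y) ^ 2 := by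
    simp only [WeierstrassCurve.b₂, WeierstrassCurve.b₄, WeierstrassCurve.b₆, negY]
    linear_combination (-4 : F) * heq
  apply hx
  rw [hB, sub_eq_zero.mpr hy]
  ring

lemma wronskian_ne_zero [CharZero F] {A B : F[X]} (hcop : IsCoprime A B)
    (hA : 0 < A.natDegree) : derivative A * B - A * derivative B ≠ 0 := by
  intro h
  have hdvd : A ∣ derivative A := by
    apply hcop.dvd_of_dvd_mul_right
    exact ⟨derivative B, by linear_combination h⟩
  have h0 : derivative A = 0 :=
    Polynomial.eq_zero_of_dvd_of_natDegree_lt hdvd (natDegree_derivative_lt (by omega))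
  have := derivative_eq_zero.mp h0
  omega

end XOf

section Count

variable {F : Type*} [Field F] [DecidableEq F] (W : WeierstrassCurve.Affine F)
  [IsAlgClosed F] [CharZero F] [W.IsElliptic]

/-- Some fibre of multiplication by `n` has exactly `n ^ 2` elements. -/
theorem exists_card_fiber {n : ℕ} (hn : 1 ≤ n) {A B : F[X]} (h : Good W n A B) :
    ∃ Q : W.Point, Nat.card {P : W.Point // n • P = Q} = n ^ 2 := by
  obtain ⟨Z, hZ⟩ := h.mul
  have hn2 : 0 < n ^ 2 := by positivity
  have hAdeg : 0 < A.natDegree := h.degA ▸ hn2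
  have hBlt : B.natDegree < A.natDegree := by
    have := h.degA
    have := h.degB
    omega
  have hwr0 : derivative A * B - A * derivative B ≠ 0 := wronskian_ne_zero h.cop hAdeg
  have hex : ∀ x : F, ∃ y, W.Nonsingular x y := exists_nonsingular W two_ne_zero
  choose yOf hyOf using hex
  have hpt : ∀ x, HasXc W (Point.some x (yOf x) (hyOf x)) x := fun x => hasXc_some (hyOf x)
  have hpsi0 : psiSq W ≠ 0 := by
    intro h
    have := natDegree_psiSq W (by norm_num)
    rw [h] at this
    simp at this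
  obtain ⟨xQ, hxQ⟩ := Infinite.exists_notMem_finset ((psiSq W).roots.toFinset ∪
    (Z ∪ (derivative A * B - A * derivative B).roots.toFinset).image
      (fun z => A.eval z / B.eval z) ∪
    Z.image (fun z => xOf W (n • Point.some z (yOf z) (hyOf z))))
  simp only [Finset.mem_union, Finset.mem_image, not_or, not_exists, not_and,
    Multiset.mem_toFinset, mem_roots hpsi0, mem_roots hwr0, IsRoot.def] at hxQ
  obtain ⟨⟨hxQ1, hxQ2⟩, hxQ3⟩ := hxQ
  have hQ : HasXc W (Point.some xQ (yOf xQ) (hyOf xQ)) xQ := hpt xQ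
  have hQneg : Point.some xQ (yOf xQ) (hyOf xQ) ≠ -Point.some xQ (yOf xQ) (hyOf xQ) :=
    ne_neg_of_psiSq_ne_zero (hyOf xQ) (by simpa using hxQ1)
  refine ⟨Point.some xQ (yOf xQ) (hyOf xQ), ?_⟩
  generalize Point.some xQ (yOf xQ) (hyOf xQ) = Q at hQ hQneg
  -- the polynomial whose roots are the `x`-coordinates of the fibre
  have hCB : (C xQ * B).natDegree < A.natDegree := lt_of_le_of_lt (natDegree_C_mul_le _ _) hBlt
  have hHm : (A - C xQ * B).Monic := h.monic.sub_of_left (degree_lt_degree hCB)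
  have hHd : (A - C xQ * B).natDegree = n ^ 2 := by
    rw [natDegree_sub_eq_left_of_natDegree_lt hCB, h.degA]
  have hH0 : A - C xQ * B ≠ 0 := hHm.ne_zero
  have hroot : ∀ x₀ : F, (A - C xQ * B).eval x₀ = 0 →
      B.eval x₀ ≠ 0 ∧ x₀ ∉ Z ∧ (derivative A * B - A * derivative B).eval x₀ ≠ 0 ∧
        A.eval x₀ = xQ * B.eval x₀ := by
    intro x₀ hx₀
    have hAx : A.eval x₀ = xQ * B.eval x₀ := by
      have : A.eval x₀ - xQ * B.eval x₀ = 0 := by simpa using hx₀
      linear_combination this
    have hBx : B.eval x₀ ≠ 0 := by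
      intro hBx
      exact no_common_root_of_isCoprime h.cop x₀ (by rw [hAx, hBx, mul_zero]) hBx
    have hdiv : A.eval x₀ / B.eval x₀ = xQ := by
      rw [hAx]
      field_simp
    exact ⟨hBx, fun hz => hxQ2 x₀ (Or.inl hz) hdiv, fun hw => hxQ2 x₀ (Or.inr hw) hdiv, hAx⟩
  have hsep : (A - C xQ * B).Separable := by
    rw [separable_def]
    apply isCoprime_of_no_common_root
    intro x₀ h1 h2
    obtain ⟨hBx, -, hwx, hAx⟩ := hroot x₀ h1
    apply hwx
    have h2' : (derivative A).eval x₀ - xQ * (derivative B).eval x₀ = 0 := by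
      simpa using h2
    simp only [eval_sub, eval_mul]
    rw [hAx]
    linear_combination (B.eval x₀) * h2'
  have hcard : (A - C xQ * B).roots.toFinset.card = n ^ 2 := by
    rw [Multiset.toFinset_card_of_nodup (nodup_roots hsep),
      ← (IsAlgClosed.splits (A - C xQ * B)).natDegree_eq_card_roots, hHd]
  -- the bijection
  have hQ0 : Q ≠ 0 := hQ.ne_zero
  have hfib : ∀ P : W.Point, n • P = Q → HasXc W P (xOf W P) ∧
      xOf W P ∈ (A - C xQ * B).roots.toFinset := by
    intro P hP
    have hP0 : P ≠ 0 := by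
      rintro rfl
      rw [smul_zero] at hP
      exact hQ0 hP.symm
    have hx := hasXc_xOf hP0
    refine ⟨hx, ?_⟩
    have hxZ : xOf W P ∉ Z := by
      intro hz
      apply hxQ3 _ hz
      have hQ' : HasXc W (n • Point.some (xOf W P) (yOf (xOf W P)) (hyOf (xOf W P))) xQ := by
        have hT := hx.eq_or_eq_neg (hpt (xOf W P))
        generalize Point.some (xOf W P) (yOf (xOf W P)) (hyOf (xOf W P)) = T at hT ⊢
        rcases hT with e | e
        · rw [← e, hP]
          exact hQ
        · have : n • T = -Q := by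
            rw [← hP, e, smul_neg, neg_neg]
          rw [this]
          exact hQ.neg
      exact hQ'.xOf_eq
    obtain ⟨hBx, x', hx', hx'B⟩ := hZ P _ hx hxZ
    rw [hP] at hx'
    obtain rfl : x' = xQ := hx'.unique hQ
    rw [Multiset.mem_toFinset, mem_roots hH0, IsRoot.def]
    simp only [eval_sub, eval_mul, eval_C]
    linear_combination -hx'B
  have hbij : Function.Bijective
      (fun P : {P : W.Point // n • P = Q} =>
        (⟨xOf W P.1, (hfib P.1 P.2).2⟩ : {x : F // x ∈ (A - C xQ * B).roots.toFinset})) := by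
    constructor
    · rintro ⟨P₁, hP₁⟩ ⟨P₂, hP₂⟩ he
      have he' : xOf W P₁ = xOf W P₂ := congrArg Subtype.val he
      have h1 := (hfib P₁ hP₁).1
      have h2 := (hfib P₂ hP₂).1
      rw [he'] at h1
      rcases h1.eq_or_eq_neg h2 with e | e
      · exact Subtype.ext e
      · exfalso
        apply hQneg
        rw [← hP₂, ← smul_neg, ← e, hP₁]
        exact hP₂.symm ▸ rfl
    · rintro ⟨x₀, hx₀⟩
      rw [Multiset.mem_toFinset, mem_roots hH0, IsRoot.def] at hx₀
      obtain ⟨hBx, hxZ, -, hAx⟩ := hroot x₀ hx₀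
      obtain ⟨-, x', hx', hx'B⟩ := hZ _ x₀ (hpt x₀) hxZ
      have hx'Q : x' = xQ := by
        apply mul_right_cancel₀ hBx
        rw [hx'B, hAx]
      rw [hx'Q] at hx'
      rcases hx'.eq_or_eq_neg hQ with e | e
      · exact ⟨⟨_, e⟩, Subtype.ext (hpt x₀).xOf_eq⟩
      · refine ⟨⟨-Point.some x₀ (yOf x₀) (hyOf x₀), by rw [smul_neg, e, neg_neg]⟩,
          Subtype.ext (hpt x₀).neg.xOf_eq⟩
  rw [Nat.card_congr (Equiv.ofBijective _ hbij), ← hcard]
  exact Nat.card_eq_finsetCard _

/-- **Torsion cardinality.** Over an algebraically closed field of characteristic zero, an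
elliptic curve has exactly `n ^ 2` points killed by `n`. -/
theorem card_torsion (n : ℕ) (hn : 0 < n) : Nat.card {P : W.Point // n • P = 0} = n ^ 2 := by
  obtain ⟨A, B, h⟩ := exists_good W n hn
  obtain ⟨Q, hQ⟩ := exists_card_fiber W hn h
  have hne : Nonempty {P : W.Point // n • P = Q} := by
    by_contra hemp
    rw [not_nonempty_iff] at hemp
    rw [Nat.card_of_isEmpty] at hQ
    have : 0 < n ^ 2 := by positivity
    omega
  obtain ⟨P₀, hP₀⟩ := hne
  rw [← hQ]
  refine Nat.card_congr (Equiv.subtypeEquiv (Equiv.addRight P₀) fun P => ?_)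
  simp only [Equiv.coe_addRight, smul_add, hP₀]
  constructor
  · intro h
    rw [h, zero_add]
  · intro h
    exact add_eq_right.mp h

end Count

end Fermat.Agent.Lib.TorsionCard
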