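import Fermat.Agent.Lib.TorsionCard.Count

set_option autoImplicit false

namespace Fermat.Agent.Lib.TorsionCard

open Polynomial WeierstrassCurve WeierstrassCurve.Affine

section Defs

variable {F : Type*} [Field F] (W : WeierstrassCurve.Affine F)

/-- Auxiliary recursion: at index `k` the pairs `(numX (k+1), denX (k+1))` and
`(numX (k+2), denX (k+2))`. -/
noncomputable def seqAB : ℕ → (F[X] × F[X]) × (F[X] × F[X])
  | 0 => ((X, 1), (phiTwo W, psiSq W))
  | k + 1 => ((seqAB k).2,
      (g2 W (seqAB k).2.1 (seqAB k).2.2 /ₘ (seqAB k).1.1,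
       g0 (seqAB k).2.1 (seqAB k).2.2 / (seqAB k).1.2))

/-- Numerator of the `x`-coordinate of `n • P` as a polynomial in `x(P)` (for `n ≥ 1`). -/
noncomputable def numX (n : ℕ) : F[X] := (seqAB W (n - 1)).1.1

/-- Denominator of the `x`-coordinate of `n • P` as a polynomial in `x(P)` (for `n ≥ 1`);
it is the square of the `n`-th division polynomial. -/
noncomputable def denX (n : ℕ) : F[X] := (seqAB W (n - 1)).1.2

@[simp] lemma numX_one : numX W 1 = X := rfl

@[simp] lemma denX_one : denX W 1 = 1 := rfl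

@[simp] lemma numX_two : numX W 2 = phiTwo W := rfl

@[simp] lemma denX_two : denX W 2 = psiSq W := rfl

lemma numX_add_two (m : ℕ) (hm : 1 ≤ m) :
    numX W (m + 2) = g2 W (numX W (m + 1)) (denX W (m + 1)) /ₘ numX W m := by
  obtain ⟨k, rfl⟩ : ∃ k, m = k + 1 := ⟨m - 1, by omega⟩
  rfl

lemma denX_add_two (m : ℕ) (hm : 1 ≤ m) :
    denX W (m + 2) = g0 (numX W (m + 1)) (denX W (m + 1)) / denX W m := by
  obtain ⟨k, rfl⟩ : ∃ k, m = k + 1 := ⟨m - 1, by omega⟩
  rfl

end Defs

section ExactDef

variable {F : Type*} [Field F] [DecidableEq F] (W : WeierstrassCurve.Affine F)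

/-- `(A, B)` computes the `x`-coordinate of `n • P` for EVERY affine point `P`:
`B(x(P)) = 0` iff `n • P = 0`, and otherwise `x(n • P) = A(x(P)) / B(x(P))`. -/
def ExactProp (n : ℕ) (A B : F[X]) : Prop :=
  ∀ (P : W.Point) (x : F), HasXc W P x →
    (B.eval x = 0 ↔ n • P = 0) ∧ ∀ x', HasXc W (n • P) x' → x' * B.eval x = A.eval x

lemma exact_one : ExactProp W 1 (X : F[X]) 1 := by
  intro P x hP
  refine ⟨?_, ?_⟩
  · simp only [eval_one, one_ne_zero, one_smul, false_iff]
    exact hP.ne_zero
  · intro x' hx'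
    rw [one_smul] at hx'
    rw [hx'.unique hP]
    simp

lemma exact_two : ExactProp W 2 (phiTwo W) (psiSq W) := by
  intro P x hP
  have key : (psiSq W).eval x ≠ 0 →
      ∃ x', HasXc W (2 • P) x' ∧ x' * (psiSq W).eval x = (phiTwo W).eval x := by
    intro h
    obtain ⟨x', h1, h2⟩ := hasXc_two_nsmul hP (by simpa using h)
    exact ⟨x', h1, by simpa using h2⟩
  have hzero : (psiSq W).eval x = 0 → 2 • P = 0 := by
    intro h
    obtain ⟨y, hy, rfl⟩ := hP
    have heq := (W.equation_iff x y).mp hy.1
    have hB : 4 * x ^ 3 + W.b₂ * x ^ 2 + 2 * W.b₄ * x + W.b₆ = (y - W.negY x y) ^ 2 := by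
      simp only [WeierstrassCurve.b₂, WeierstrassCurve.b₄, WeierstrassCurve.b₆, negY]
      linear_combination (-4 : F) * heq
    rw [eval_psiSq, hB] at h
    have hy' : y = W.negY x y :=
      sub_eq_zero.mp ((pow_eq_zero_iff (n := 2) (by norm_num)).mp h)
    rw [two_nsmul]
    exact Point.add_self_of_Y_eq hy'
  have hne : 2 • P ≠ 0 → (psiSq W).eval x ≠ 0 := fun h h0 => h (hzero h0)
  refine ⟨⟨hzero, fun h => ?_⟩, ?_⟩
  · by_contra hne'
    obtain ⟨x', h1, -⟩ := key hne'
    exact h1.ne_zero h
  · intro x' hx'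
    obtain ⟨x'', h1, h2⟩ := key (hne hx'.ne_zero)
    rw [hx'.unique h1]
    exact h2

lemma exact_step {m : ℕ} {A₀ B₀ A B A' B' : F[X]}
    (hc₀ : IsCoprime A₀ B₀) (hc : IsCoprime A B)
    (he₀ : ExactProp W m A₀ B₀) (he : ExactProp W (m + 1) A B)
    (h2 : g2 W A B = A₀ * A') (h0 : g0 A B = B₀ * B')
    (h1 : g1 W A B = A₀ * B' + A' * B₀) :
    ExactProp W (m + 2) A' B' := by
  intro P x hP
  obtain ⟨hz₀, hx₀⟩ := he₀ P x hP
  obtain ⟨hz, hx⟩ := he P x hP
  obtain ⟨hz2, hx2⟩ := exact_two W P x hP
  have i0 := congrArg (Polynomial.eval x) h0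
  have i1 := congrArg (Polynomial.eval x) h1
  have i2 := congrArg (Polynomial.eval x) h2
  rw [eval_g0, eval_mul] at i0
  rw [eval_g1, eval_add, eval_mul, eval_mul] at i1
  rw [eval_g2, eval_mul] at i2
  by_cases hm1 : (m + 1) • P = 0
  · -- `(m+1)P = 0`
    have hb : B.eval x = 0 := hz.mpr hm1
    have ha : A.eval x ≠ 0 := fun ha => no_common_root_of_isCoprime hc x ha hb
    have e2 : (m + 2) • P = P := by
      rw [succ_nsmul, hm1, zero_add]
    have e0 : m • P = -P := by
      have : m • P + P = 0 := by rw [← succ_nsmul]; exact hm1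
      exact eq_neg_of_add_eq_zero_left this
    have hb₀ : B₀.eval x ≠ 0 := by
      rw [Ne, hz₀, e0, neg_eq_zero]
      exact hP.ne_zero
    have ha₀ : x * B₀.eval x = A₀.eval x := hx₀ x (by rw [e0]; exact hP.neg)
    rw [hb] at i0 i1 i2
    have hb' : B'.eval x ≠ 0 := by
      intro h
      rw [h, mul_zero] at i0
      exact ha (by simpa using i0)
    refine ⟨⟨fun h => absurd h hb', fun h => absurd (e2 ▸ h) hP.ne_zero⟩, ?_⟩
    intro x' hx'
    rw [e2] at hx'
    rw [hx'.unique hP]
    apply mul_left_cancel₀ hb₀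
    rw [← ha₀] at i1
    linear_combination i1 - (2 * x) * i0
  · -- `(m+1)P ≠ 0`
    have hb : B.eval x ≠ 0 := fun h => hm1 (hz.mp h)
    obtain ⟨u, hu⟩ := exists_hasXc_of_ne_zero hm1
    have huB : u * B.eval x = A.eval x := hx u hu
    by_cases hux : u = x
    · rw [hux] at hu huB
      have hAx : A.eval x = x * B.eval x := huB.symm
      rw [hAx] at i0 i1 i2
      have i0' : B₀.eval x * B'.eval x = 0 := by linear_combination -i0
      by_cases hm0 : m • P = 0
      · have hb₀ : B₀.eval x = 0 := hz₀.mpr hm0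
        have ha₀ : A₀.eval x ≠ 0 := fun ha => no_common_root_of_isCoprime hc₀ x ha hb₀
        have e2 : (m + 2) • P = 2 • P := by rw [add_nsmul, hm0, zero_add]
        rw [hb₀] at i1
        have j1 : A₀.eval x * B'.eval x = B.eval x ^ 2 * (psiSq W).eval x := by
          rw [eval_psiSq]
          linear_combination -i1
        have j2 : A₀.eval x * A'.eval x = B.eval x ^ 2 * (phiTwo W).eval x := by
          rw [eval_phiTwo]
          linear_combination -i2
        refine ⟨?_, ?_⟩
        · rw [e2, ← hz2]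
          constructor
          · intro h
            rw [h, mul_zero] at j1
            exact (mul_eq_zero.mp j1.symm).resolve_left (pow_ne_zero 2 hb)
          · intro h
            rw [h, mul_zero] at j1
            exact (mul_eq_zero.mp j1).resolve_left ha₀
        · intro x' hx'
          rw [e2] at hx'
          have h3 := hx2 x' hx'
          apply mul_left_cancel₀ ha₀
          linear_combination x' * j1 - j2 + (B.eval x) ^ 2 * h3
      · have hb₀ : B₀.eval x ≠ 0 := fun h => hm0 (hz₀.mp h)
        have hb' : B'.eval x = 0 := (mul_eq_zero.mp i0').resolve_left hb₀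
        have e : (m + 2) • P = 0 := by
          rcases hu.eq_or_eq_neg hP with e | e
          · exfalso
            apply hm0
            have : m • P + P = P := by rw [← succ_nsmul]; exact e
            exact add_eq_right.mp this
          · rw [succ_nsmul, e, neg_add_cancel]
        exact ⟨⟨fun _ => e, fun _ => hb'⟩, fun x' hx' => absurd e hx'.ne_zero⟩
    · have hm2 : (m + 2) • P ≠ 0 := by
        intro h
        apply hux
        have e : (m + 1) • P = -P := by
          have h' : (m + 1) • P + P = 0 := by rw [← succ_nsmul]; exact h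
          exact eq_neg_of_add_eq_zero_left h'
        rw [e] at hu
        exact hu.unique hP.neg
      have hm0 : m • P ≠ 0 := by
        intro h
        apply hux
        have e : (m + 1) • P = P := by rw [succ_nsmul, h, zero_add]
        rw [e] at hu
        exact hu.unique hP
      have hb₀ : B₀.eval x ≠ 0 := fun h => hm0 (hz₀.mp h)
      obtain ⟨w, hw⟩ := exists_hasXc_of_ne_zero hm0
      have hwB : w * B₀.eval x = A₀.eval x := hx₀ w hw
      have hD : (A - X * B).eval x ≠ 0 := by
        simp only [eval_sub, eval_mul, eval_X]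
        rw [← huB]
        intro h
        apply hux
        have h' : (u - x) * B.eval x = 0 := by linear_combination h
        exact sub_eq_zero.mp ((mul_eq_zero.mp h').resolve_right hb)
      obtain ⟨hg0, x₃, hx₃, k1, -⟩ := step_point W hP hu huB hw hD
      rw [h0, eval_mul] at hg0 k1
      rw [h1] at k1
      simp only [eval_add, eval_mul] at k1
      have hb' : B'.eval x ≠ 0 := fun h => hg0 (by rw [h, mul_zero])
      refine ⟨⟨fun h => absurd h hb', fun h => absurd h hm2⟩, ?_⟩
      intro x' hx'
      rw [hx'.unique hx₃]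
      rw [← hwB] at k1
      apply mul_left_cancel₀ hb₀
      linear_combination k1

end ExactDef

section Seq

variable {F : Type*} [Field F] [DecidableEq F] (W : WeierstrassCurve.Affine F)
  [IsAlgClosed F] [CharZero F] [W.IsElliptic]

lemma seq_step {m : ℕ} (hm : 1 ≤ m) (h₀ : Good W m (numX W m) (denX W m))
    (h₁ : Good W (m + 1) (numX W (m + 1)) (denX W (m + 1))) :
    Good W (m + 2) (numX W (m + 2)) (denX W (m + 2)) ∧
      g2 W (numX W (m + 1)) (denX W (m + 1)) = numX W m * numX W (m + 2) ∧
      g0 (numX W (m + 1)) (denX W (m + 1)) = denX W m * denX W (m + 2) ∧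
      g1 W (numX W (m + 1)) (denX W (m + 1)) =
        numX W m * denX W (m + 2) + numX W (m + 2) * denX W m := by
  obtain ⟨A', B', hG, hA', hB', hg1⟩ := good_step_ident W hm h₀ h₁
  have hB₀0 : denX W m ≠ 0 := by
    intro h
    have h' := h₀.lcB
    rw [h, leadingCoeff_zero] at h'
    have hm0 : (m : F) ≠ 0 := by exact_mod_cast (by omega : m ≠ 0)
    exact pow_ne_zero 2 hm0 h'.symm
  have eA : numX W (m + 2) = A' := by
    rw [numX_add_two W m hm, hA', mul_divByMonic_cancel_left _ h₀.monic]
  have eB : denX W (m + 2) = B' := by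
    rw [denX_add_two W m hm, hB', mul_div_cancel_left₀ _ hB₀0]
  rw [eA, eB]
  exact ⟨hG, hA', hB', hg1⟩

theorem seq_good_pair : ∀ n, 1 ≤ n →
    Good W n (numX W n) (denX W n) ∧ Good W (n + 1) (numX W (n + 1)) (denX W (n + 1)) := by
  intro n hn
  induction n, hn using Nat.le_induction with
  | base => exact ⟨good_one W, good_two W⟩
  | succ m hm ih => exact ⟨ih.2, (seq_step W hm ih.1 ih.2).1⟩

/-- The explicit sequence `(numX W n, denX W n)` is good: `numX` monic of degree `n²`,
`denX` of degree `n² - 1` with leading coefficient `n²`, coprime. -/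
theorem good_seq (n : ℕ) (hn : 1 ≤ n) : Good W n (numX W n) (denX W n) :=
  (seq_good_pair W n hn).1

/-- The three exact identities linking three consecutive pairs. -/
theorem ident_seq (m : ℕ) (hm : 1 ≤ m) :
    g2 W (numX W (m + 1)) (denX W (m + 1)) = numX W m * numX W (m + 2) ∧
    g0 (numX W (m + 1)) (denX W (m + 1)) = denX W m * denX W (m + 2) ∧
    g1 W (numX W (m + 1)) (denX W (m + 1)) =
      numX W m * denX W (m + 2) + numX W (m + 2) * denX W m :=
  (seq_step W hm (seq_good_pair W m hm).1 (seq_good_pair W m hm).2).2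

/-- `denX m * denX (m+2) = (numX (m+1) - X * denX (m+1))²`. -/
theorem denX_mul_denX (m : ℕ) (hm : 1 ≤ m) :
    denX W m * denX W (m + 2) = (numX W (m + 1) - X * denX W (m + 1)) ^ 2 :=
  (ident_seq W m hm).2.1.symm

theorem exact_seq_pair : ∀ n, 1 ≤ n → ExactProp W n (numX W n) (denX W n) ∧
    ExactProp W (n + 1) (numX W (n + 1)) (denX W (n + 1)) := by
  intro n hn
  induction n, hn using Nat.le_induction with
  | base => exact ⟨exact_one W, exact_two W⟩
  | succ m hm ih =>
    obtain ⟨i2, i0, i1⟩ := ident_seq W m hm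
    exact ⟨ih.2, exact_step W (good_seq W m hm).cop (good_seq W (m + 1) (by omega)).cop
      ih.1 ih.2 i2 i0 i1⟩

/-- The sequence computes `x(n • P)` exactly, with no exceptional set. -/
theorem exact_seq (n : ℕ) (hn : 1 ≤ n) : ExactProp W n (numX W n) (denX W n) :=
  (exact_seq_pair W n hn).1

/-- `denX W n` vanishes exactly at the `x`-coordinates of the nonzero `n`-torsion points. -/
theorem denX_eval_eq_zero_iff (n : ℕ) (hn : 1 ≤ n) {P : W.Point} {x : F} (hP : HasXc W P x) :
    (denX W n).eval x = 0 ↔ n • P = 0 :=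
  (exact_seq W n hn P x hP).1

/-- `x(n • P) * denX(x(P)) = numX(x(P))`. -/
theorem mul_denX_eval (n : ℕ) (hn : 1 ≤ n) {P : W.Point} {x x' : F} (hP : HasXc W P x)
    (hP' : HasXc W (n • P) x') : x' * (denX W n).eval x = (numX W n).eval x :=
  (exact_seq W n hn P x hP).2 x' hP'

end Seq

end Fermat.Agent.Lib.TorsionCard
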