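import Fermat.Agent.Lib.TorsionCard.Basic

set_option autoImplicit false

namespace Fermat.Agent.Lib.TorsionCard

open Polynomial WeierstrassCurve WeierstrassCurve.Affine

section Good

variable {F : Type*} [Field F] [DecidableEq F] (W : WeierstrassCurve.Affine F)

/-- `x(nP) = A(x)/B(x)` for all points `P` outside finitely many `x`-coordinates. -/
def MulProp (n : ℕ) (A B : F[X]) : Prop :=
  ∃ Z : Finset F, ∀ (P : W.Point) (x : F), HasXc W P x → x ∉ Z →
    B.eval x ≠ 0 ∧ ∃ x' : F, HasXc W (n • P) x' ∧ x' * B.eval x = A.eval x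

/-- The pair `(A, B)` computes the `x`-coordinate of `nP`, with the expected degrees. -/
structure Good (n : ℕ) (A B : F[X]) : Prop where
  monic : A.Monic
  degA : A.natDegree = n ^ 2
  degB : B.natDegree + 1 = n ^ 2
  lcB : B.leadingCoeff = (n : F) ^ 2
  cop : IsCoprime A B
  mul : MulProp W n A B

lemma good_one : Good W 1 (X : F[X]) 1 where
  monic := monic_X
  degA := by simp
  degB := by simp
  lcB := by simp
  cop := isCoprime_one_right
  mul := ⟨∅, fun P x hP _ => ⟨by simp, x, by simpa using hP, by simp⟩⟩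

lemma step_point {m : ℕ} {A B : F[X]} {P : W.Point} {x u w : F}
    (hP : HasXc W P x)
    (hu : HasXc W ((m + 1) • P) u) (huB : u * B.eval x = A.eval x)
    (hw : HasXc W (m • P) w)
    (hD : (A - X * B).eval x ≠ 0) :
    (g0 A B).eval x ≠ 0 ∧ ∃ x₃, HasXc W ((m + 2) • P) x₃ ∧
      (x₃ + w) * (g0 A B).eval x = (g1 W A B).eval x ∧
      x₃ * w * (g0 A B).eval x = (g2 W A B).eval x := by
  have hD' : A.eval x - x * B.eval x ≠ 0 := by simpa using hD
  have hux : u ≠ x := by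
    intro h
    rw [h] at huB
    exact hD' (by rw [← huB]; ring)
  obtain ⟨x₃, x₄, h₃, h₄, hs, hp⟩ := hasXc_add_sub hu hP hux
  have e₃ : (m + 1) • P + P = (m + 2) • P := (succ_nsmul P (m + 1)).symm
  have e₄ : (m + 1) • P - P = m • P := by rw [succ_nsmul, add_sub_cancel_right]
  rw [e₃] at h₃
  rw [e₄] at h₄
  obtain rfl : x₄ = w := h₄.unique hw
  refine ⟨by rw [eval_g0]; exact pow_ne_zero 2 hD', x₃, h₃, ?_, ?_⟩
  · rw [eval_g0, eval_g1, ← huB]
    linear_combination (B.eval x) ^ 2 * hs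
  · rw [eval_g0, eval_g2, ← huB]
    linear_combination (B.eval x) ^ 2 * hp

lemma step_data {m : ℕ} {A₀ B₀ A B : F[X]} {Z₀ Z : Finset F}
    (h₀ : ∀ (P : W.Point) (x : F), HasXc W P x → x ∉ Z₀ →
      B₀.eval x ≠ 0 ∧ ∃ x' : F, HasXc W (m • P) x' ∧ x' * B₀.eval x = A₀.eval x)
    (h₁ : ∀ (P : W.Point) (x : F), HasXc W P x → x ∉ Z →
      B.eval x ≠ 0 ∧ ∃ x' : F, HasXc W ((m + 1) • P) x' ∧ x' * B.eval x = A.eval x)
    (hD0 : A - X * B ≠ 0)
    {P : W.Point} {x : F} (hP : HasXc W P x)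
    (hx : x ∉ Z ∪ Z₀ ∪ (A - X * B).roots.toFinset) :
    B₀.eval x ≠ 0 ∧ (g0 A B).eval x ≠ 0 ∧ ∃ w x₃, w * B₀.eval x = A₀.eval x ∧
      HasXc W ((m + 2) • P) x₃ ∧
      (x₃ + w) * (g0 A B).eval x = (g1 W A B).eval x ∧
      x₃ * w * (g0 A B).eval x = (g2 W A B).eval x := by
  simp only [Finset.mem_union, Multiset.mem_toFinset, mem_roots hD0, IsRoot.def, not_or] at hx
  obtain ⟨⟨hxZ, hxZ₀⟩, hxD⟩ := hx
  obtain ⟨hB₀, w, hw, hwB⟩ := h₀ P x hP hxZ₀
  obtain ⟨-, u, hu, huB⟩ := h₁ P x hP hxZ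
  obtain ⟨hg0, x₃, hx₃, h1, h2⟩ := step_point W hP hu huB hw hxD
  exact ⟨hB₀, hg0, w, x₃, hwB, hx₃, h1, h2⟩

variable [IsAlgClosed F] [CharZero F] [W.IsElliptic]

omit [DecidableEq F] [IsAlgClosed F] [CharZero F] in
lemma Δ_ne_zero' : W.Δ ≠ 0 := (WeierstrassCurve.IsElliptic.isUnit (W := W)).ne_zero

omit [DecidableEq F] [CharZero F] in
lemma isCoprime_of_no_common_root {p q : F[X]}
    (h : ∀ a : F, p.eval a = 0 → q.eval a = 0 → False) : IsCoprime p q := by
  refine (Polynomial.isCoprime_iff_aeval_ne_zero_of_isAlgClosed (k := F) F p q).mpr fun a => ?_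
  by_contra hc
  push Not at hc
  exact h a (by simpa using hc.1) (by simpa using hc.2)

omit [DecidableEq F] [IsAlgClosed F] [CharZero F] in
lemma no_common_root_of_isCoprime {p q : F[X]} (h : IsCoprime p q) (a : F)
    (hp : p.eval a = 0) (hq : q.eval a = 0) : False := by
  obtain ⟨s, t, hst⟩ := h
  have := congrArg (Polynomial.eval a) hst
  simp [hp, hq] at this

lemma good_two : Good W 2 (phiTwo W) (psiSq W) where
  monic := phiTwo_monic W
  degA := by rw [natDegree_phiTwo]; norm_num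
  degB := by rw [natDegree_psiSq W (by norm_num)]; norm_num
  lcB := by rw [leadingCoeff_psiSq W (by norm_num)]; norm_num
  cop := isCoprime_of_no_common_root fun a h1 h2 =>
    not_both_zero W (Δ_ne_zero' W) a (by simpa using h2) (by simpa using h1)
  mul := by
    refine ⟨(psiSq W).roots.toFinset, fun P x hP hx => ?_⟩
    have h0 : psiSq W ≠ 0 := by
      intro h
      have := natDegree_psiSq W (by norm_num)
      rw [h] at this
      simp at this
    have hx' : (psiSq W).eval x ≠ 0 := by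
      intro h
      exact hx (by simpa [mem_roots h0] using h)
    refine ⟨hx', ?_⟩
    obtain ⟨x', h1, h2⟩ := hasXc_two_nsmul hP (by simpa using hx')
    exact ⟨x', h1, by simpa using h2⟩

/-- The inductive step, with the exact polynomial identities relating the new pair to the
two previous ones. -/
theorem good_step_ident {m : ℕ} (hm : 1 ≤ m) {A₀ B₀ A B : F[X]}
    (h₀ : Good W m A₀ B₀) (h₁ : Good W (m + 1) A B) :
    ∃ A' B', Good W (m + 2) A' B' ∧ g2 W A B = A₀ * A' ∧ g0 A B = B₀ * B' ∧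
      g1 W A B = A₀ * B' + A' * B₀ := by
  obtain ⟨Z₀, hZ₀⟩ := h₀.mul
  obtain ⟨Z, hZ⟩ := h₁.mul
  have hm0 : (m : F) ≠ 0 := by exact_mod_cast (by omega : m ≠ 0)
  have hne : (1 : F) - ((m + 1 : ℕ) : F) ^ 2 ≠ 0 := by
    have h1 : ((1 : ℕ) : F) ≠ (((m + 1) ^ 2 : ℕ) : F) := by
      rw [Ne, Nat.cast_inj]
      nlinarith
    intro h
    apply h1
    push_cast at h ⊢
    linear_combination h
  obtain ⟨hDd, hDl⟩ := sub_X_mul_props h₁.monic h₁.degA h₁.degB h₁.lcB hne
  have hD0 : A - X * B ≠ 0 := by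
    intro h
    rw [h, leadingCoeff_zero] at hDl
    exact hne hDl.symm
  have key : ∀ (P : W.Point) (x : F), HasXc W P x →
      x ∉ Z ∪ Z₀ ∪ (A - X * B).roots.toFinset →
      B₀.eval x ≠ 0 ∧ (g0 A B).eval x ≠ 0 ∧ ∃ w x₃, w * B₀.eval x = A₀.eval x ∧
      HasXc W ((m + 2) • P) x₃ ∧
      (x₃ + w) * (g0 A B).eval x = (g1 W A B).eval x ∧
      x₃ * w * (g0 A B).eval x = (g2 W A B).eval x :=
    fun P x hP hx => step_data W hZ₀ hZ hD0 hP hx
  -- the polynomial identity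
  have hid : g0 A B * A₀ ^ 2 - g1 W A B * (A₀ * B₀) + g2 W A B * B₀ ^ 2 = 0 := by
    apply Polynomial.eq_zero_of_infinite_isRoot
    refine Set.Infinite.mono ?_
      ((Z ∪ Z₀ ∪ (A - X * B).roots.toFinset).finite_toSet.infinite_compl)
    intro x hx
    obtain ⟨y, hy⟩ := exists_nonsingular W two_ne_zero x
    obtain ⟨hB₀, -, w, x₃, hwB, -, h1, h2⟩ := key _ x (hasXc_some hy) (by simpa using hx)
    simp only [Set.mem_ofPred_eq, IsRoot.def, eval_add, eval_sub, eval_mul, eval_pow]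
    rw [← hwB]
    linear_combination (w * B₀.eval x ^ 2) * h1 - (B₀.eval x ^ 2) * h2
  have hA₀0 : A₀ ≠ 0 := h₀.monic.ne_zero
  have hB₀0 : B₀ ≠ 0 := by
    intro h
    have := h₀.lcB
    rw [h, leadingCoeff_zero] at this
    exact pow_ne_zero 2 hm0 this.symm
  have hdvdA : A₀ ∣ g2 W A B := by
    apply (h₀.cop.pow_right (n := 2)).dvd_of_dvd_mul_right
    exact ⟨g1 W A B * B₀ - g0 A B * A₀, by linear_combination hid⟩
  have hdvdB : B₀ ∣ g0 A B := by
    apply (h₀.cop.symm.pow_right (n := 2)).dvd_of_dvd_mul_right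
    exact ⟨g1 W A B * A₀ - g2 W A B * B₀, by linear_combination hid⟩
  obtain ⟨A', hA'⟩ := hdvdA
  obtain ⟨B', hB'⟩ := hdvdB
  have hg1 : g1 W A B = A₀ * B' + A' * B₀ := by
    have h : A₀ * B₀ * (A₀ * B' + A' * B₀ - g1 W A B) = 0 := by
      linear_combination hid - A₀ ^ 2 * hB' - B₀ ^ 2 * hA'
    rcases mul_eq_zero.mp h with h | h
    · exact absurd h (mul_ne_zero hA₀0 hB₀0)
    · linear_combination -h
  -- degrees
  obtain ⟨hg2m, hg2d⟩ := g2_monic W h₁.monic h₁.degA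
    (by have := h₁.degB; omega : B.natDegree < (m + 1) ^ 2)
  have e1 : (m + 1) ^ 2 = m ^ 2 + 2 * m + 1 := by ring
  have e2 : (m + 2) ^ 2 = m ^ 2 + 4 * m + 4 := by ring
  have hA'm : A'.Monic := h₀.monic.of_mul_monic_left (hA' ▸ hg2m)
  have hA'd : A'.natDegree = (m + 2) ^ 2 := by
    have h := congrArg natDegree hA'
    rw [hg2d, h₀.monic.natDegree_mul hA'm, h₀.degA] at h
    omega
  have hg0d : (g0 A B).natDegree = 2 * (m + 1) ^ 2 := by
    rw [g0, natDegree_pow, hDd]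
  have hg0l : (g0 A B).leadingCoeff = (1 - ((m + 1 : ℕ) : F) ^ 2) ^ 2 := by
    rw [g0, leadingCoeff_pow, hDl]
  have hB'0 : B' ≠ 0 := by
    rintro rfl
    rw [mul_zero] at hB'
    rw [hB', natDegree_zero] at hg0d
    omega
  have hB'd : B'.natDegree + 1 = (m + 2) ^ 2 := by
    have h := congrArg natDegree hB'
    rw [hg0d, natDegree_mul hB₀0 hB'0] at h
    have := h₀.degB
    omega
  have hB'l : B'.leadingCoeff = ((m + 2 : ℕ) : F) ^ 2 := by
    have h := congrArg leadingCoeff hB'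
    rw [hg0l, leadingCoeff_mul, h₀.lcB] at h
    have hm2 : (m : F) ^ 2 ≠ 0 := pow_ne_zero 2 hm0
    apply mul_left_cancel₀ hm2
    push_cast at h ⊢
    linear_combination -h
  -- coprimality
  have hcop : IsCoprime A' B' := by
    apply isCoprime_of_no_common_root
    intro a ha hb
    have e0 : (g0 A B).eval a = 0 := by rw [hB', eval_mul, hb, mul_zero]
    have e2' : (g2 W A B).eval a = 0 := by rw [hA', eval_mul, ha, mul_zero]
    have e1' : (g1 W A B).eval a = 0 := by rw [hg1]; simp [ha, hb]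
    rw [eval_g0] at e0
    rw [eval_g1] at e1'
    rw [eval_g2] at e2'
    have hAa : A.eval a = a * B.eval a := by
      have := (pow_eq_zero_iff (n := 2) (by norm_num)).mp e0
      linear_combination this
    have hBa : B.eval a ≠ 0 := by
      intro hBa
      exact no_common_root_of_isCoprime h₁.cop a (by rw [hAa, hBa, mul_zero]) hBa
    rw [hAa] at e1' e2'
    apply not_both_zero W (Δ_ne_zero' W) a
    · have : (B.eval a) ^ 2 * (4 * a ^ 3 + W.b₂ * a ^ 2 + 2 * W.b₄ * a + W.b₆) = 0 := by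
        linear_combination e1'
      exact (mul_eq_zero.mp this).resolve_left (pow_ne_zero 2 hBa)
    · have : (B.eval a) ^ 2 * (a ^ 4 - W.b₄ * a ^ 2 - 2 * W.b₆ * a - W.b₈) = 0 := by
        linear_combination e2'
      exact (mul_eq_zero.mp this).resolve_left (pow_ne_zero 2 hBa)
  -- the multiplication property
  have hmul : MulProp W (m + 2) A' B' := by
    refine ⟨Z ∪ Z₀ ∪ (A - X * B).roots.toFinset, fun P x hP hx => ?_⟩
    obtain ⟨hB₀, hg0x, w, x₃, hwB, hx₃, h1, -⟩ := key P x hP hx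
    have hB'x : B'.eval x ≠ 0 := by
      intro h
      apply hg0x
      rw [hB', eval_mul, h, mul_zero]
    refine ⟨hB'x, x₃, hx₃, ?_⟩
    have h1' := h1
    rw [hg1, hB'] at h1'
    simp only [eval_add, eval_mul] at h1'
    rw [← hwB] at h1'
    apply mul_left_cancel₀ hB₀
    linear_combination h1'
  exact ⟨A', B', ⟨hA'm, hA'd, hB'd, hB'l, hcop, hmul⟩, hA', hB', hg1⟩

theorem good_step {m : ℕ} (hm : 1 ≤ m) {A₀ B₀ A B : F[X]}
    (h₀ : Good W m A₀ B₀) (h₁ : Good W (m + 1) A B) :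
    ∃ A' B', Good W (m + 2) A' B' := by
  obtain ⟨A', B', h, -⟩ := good_step_ident W hm h₀ h₁
  exact ⟨A', B', h⟩

theorem exists_good (n : ℕ) (hn : 1 ≤ n) : ∃ A B, Good W n A B := by
  have : ∀ n, 1 ≤ n → (∃ A B, Good W n A B) ∧ (∃ A B, Good W (n + 1) A B) := by
    intro n hn
    induction n, hn using Nat.le_induction with
    | base => exact ⟨⟨_, _, good_one W⟩, ⟨_, _, good_two W⟩⟩
    | succ m hm ih =>
      obtain ⟨⟨A₀, B₀, h₀⟩, ⟨A, B, h₁⟩⟩ := ih
      exact ⟨⟨A, B, h₁⟩, good_step W hm h₀ h₁⟩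
  exact (this n hn).1

end Good

end Fermat.Agent.Lib.TorsionCard
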