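import Fermat.Agent.Lib.TorsionCard.Exact

set_option autoImplicit false

namespace Fermat.Agent.Lib.TorsionCard

open Polynomial WeierstrassCurve WeierstrassCurve.Affine

section IntPoly

variable {F : Type*} [Field F] (O : Subring F)

/-- The subring of polynomials with coefficients in `O`. -/
noncomputable def intPoly : Subring F[X] := Polynomial.liftsRing O.subtype

variable {O}

lemma mem_intPoly_iff_lifts (p : F[X]) : p ∈ intPoly O ↔ p ∈ lifts O.subtype :=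
  (lifts_iff_liftsRing _ p).symm

lemma mem_intPoly_iff (p : F[X]) : p ∈ intPoly O ↔ ∀ i, p.coeff i ∈ O := by
  rw [mem_intPoly_iff_lifts, lifts_iff_coeff_lifts]
  simp

lemma C_mem_intPoly {a : F} (ha : a ∈ O) : C a ∈ intPoly O :=
  (mem_intPoly_iff_lifts _).mpr (C_mem_lifts O.subtype ⟨a, ha⟩)

lemma X_mem_intPoly : (X : F[X]) ∈ intPoly O :=
  (mem_intPoly_iff_lifts _).mpr (X_mem_lifts O.subtype)

lemma divByMonic_mem_intPoly {p q : F[X]} (hp : p ∈ intPoly O) (hq : q ∈ intPoly O)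
    (hm : q.Monic) : p /ₘ q ∈ intPoly O := by
  rw [mem_intPoly_iff_lifts] at hp hq ⊢
  obtain ⟨p₀, rfl⟩ := (mem_lifts p).mp hp
  obtain ⟨q₀, rfl, -, hq₀⟩ := lifts_and_natDegree_eq_and_monic hq hm
  exact (mem_lifts _).mpr ⟨p₀ /ₘ q₀, map_divByMonic _ hq₀⟩

lemma div_mem_intPoly {p q : F[X]} (hp : p ∈ intPoly O) (hq : q ∈ intPoly O) (hq0 : q ≠ 0)
    (hlc : (q.leadingCoeff)⁻¹ ∈ O) : p / q ∈ intPoly O := by
  rw [div_def]
  refine mul_mem (C_mem_intPoly hlc) (divByMonic_mem_intPoly hp ?_ ?_)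
  · exact mul_mem hq (C_mem_intPoly hlc)
  · exact monic_mul_leadingCoeff_inv hq0

variable (W : WeierstrassCurve.Affine F)

lemma phiTwo_mem_intPoly (hb₄ : W.b₄ ∈ O) (hb₆ : W.b₆ ∈ O) (hb₈ : W.b₈ ∈ O) :
    phiTwo W ∈ intPoly O := by
  unfold phiTwo
  have h2 : (2 : F) ∈ O := ofNat_mem O 2
  exact sub_mem (sub_mem (sub_mem (pow_mem X_mem_intPoly 4)
    (mul_mem (C_mem_intPoly hb₄) (pow_mem X_mem_intPoly 2)))
    (mul_mem (C_mem_intPoly (mul_mem h2 hb₆)) X_mem_intPoly)) (C_mem_intPoly hb₈)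

lemma psiSq_mem_intPoly (hb₂ : W.b₂ ∈ O) (hb₄ : W.b₄ ∈ O) (hb₆ : W.b₆ ∈ O) :
    psiSq W ∈ intPoly O := by
  unfold psiSq
  have h2 : (2 : F) ∈ O := ofNat_mem O 2
  have h4 : (4 : F) ∈ O := ofNat_mem O 4
  exact add_mem (add_mem (add_mem (mul_mem (C_mem_intPoly h4) (pow_mem X_mem_intPoly 3))
    (mul_mem (C_mem_intPoly hb₂) (pow_mem X_mem_intPoly 2)))
    (mul_mem (C_mem_intPoly (mul_mem h2 hb₄)) X_mem_intPoly)) (C_mem_intPoly hb₆)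

lemma g0_mem_intPoly {A B : F[X]} (hA : A ∈ intPoly O) (hB : B ∈ intPoly O) :
    g0 A B ∈ intPoly O := by
  unfold g0
  exact pow_mem (sub_mem hA (mul_mem X_mem_intPoly hB)) 2

lemma g2_mem_intPoly (hb₄ : W.b₄ ∈ O) (hb₆ : W.b₆ ∈ O) (hb₈ : W.b₈ ∈ O) {A B : F[X]}
    (hA : A ∈ intPoly O) (hB : B ∈ intPoly O) : g2 W A B ∈ intPoly O := by
  unfold g2
  have hX : (X : F[X]) ∈ intPoly O := X_mem_intPoly
  exact sub_mem (sub_mem (sub_mem (mul_mem (pow_mem hX 2) (pow_mem hA 2))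
    (mul_mem (mul_mem (mul_mem (C_mem_intPoly hb₄) hX) hA) hB))
    (mul_mem (mul_mem (C_mem_intPoly hb₆) (add_mem hA (mul_mem hX hB))) hB))
    (mul_mem (C_mem_intPoly hb₈) (pow_mem hB 2))

lemma g1_mem_intPoly (hb₂ : W.b₂ ∈ O) (hb₄ : W.b₄ ∈ O) (hb₆ : W.b₆ ∈ O) {A B : F[X]}
    (hA : A ∈ intPoly O) (hB : B ∈ intPoly O) : g1 W A B ∈ intPoly O := by
  unfold g1
  have hX : (X : F[X]) ∈ intPoly O := X_mem_intPoly
  have h2 : (2 : F) ∈ O := ofNat_mem O 2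
  exact add_mem (add_mem (add_mem
    (mul_mem (mul_mem (mul_mem (C_mem_intPoly h2) hX) hA) (add_mem hA (mul_mem hX hB)))
    (mul_mem (mul_mem (mul_mem (C_mem_intPoly hb₂) hX) hA) hB))
    (mul_mem (mul_mem (C_mem_intPoly hb₄) (add_mem hA (mul_mem hX hB))) hB))
    (mul_mem (C_mem_intPoly hb₆) (pow_mem hB 2))

lemma b_mem_of_a_mem (h₁ : W.a₁ ∈ O) (h₂ : W.a₂ ∈ O) (h₃ : W.a₃ ∈ O) (h₄ : W.a₄ ∈ O)
    (h₆ : W.a₆ ∈ O) : W.b₂ ∈ O ∧ W.b₄ ∈ O ∧ W.b₆ ∈ O ∧ W.b₈ ∈ O := by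
  have c2 : (2 : F) ∈ O := ofNat_mem O 2
  have c4 : (4 : F) ∈ O := ofNat_mem O 4
  refine ⟨?_, ?_, ?_, ?_⟩
  · simp only [WeierstrassCurve.b₂]
    exact add_mem (pow_mem h₁ 2) (mul_mem c4 h₂)
  · simp only [WeierstrassCurve.b₄]
    exact add_mem (mul_mem c2 h₄) (mul_mem h₁ h₃)
  · simp only [WeierstrassCurve.b₆]
    exact add_mem (pow_mem h₃ 2) (mul_mem c4 h₆)
  · simp only [WeierstrassCurve.b₈]
    exact sub_mem (add_mem (sub_mem (add_mem (mul_mem (pow_mem h₁ 2) h₆)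
      (mul_mem (mul_mem c4 h₂) h₆)) (mul_mem (mul_mem h₁ h₃) h₄)) (mul_mem h₂ (pow_mem h₃ 2)))
      (pow_mem h₄ 2)

end IntPoly

section Seq

variable {F : Type*} [Field F] [DecidableEq F] (W : WeierstrassCurve.Affine F)
  [IsAlgClosed F] [CharZero F] [W.IsElliptic]

/-- Integrality of the sequence: if the `b`-invariants lie in a subring `O` in which
`1, …, N` are invertible, then `numX W n` and `denX W n` have coefficients in `O` for all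
`n ≤ N + 2`. -/
theorem seq_mem_intPoly (O : Subring F) (hb₂ : W.b₂ ∈ O) (hb₄ : W.b₄ ∈ O) (hb₆ : W.b₆ ∈ O)
    (hb₈ : W.b₈ ∈ O) (N : ℕ) (hN : ∀ m : ℕ, 1 ≤ m → m ≤ N → ((m : F))⁻¹ ∈ O) :
    ∀ n, 1 ≤ n → (n ≤ N + 2 → numX W n ∈ intPoly O ∧ denX W n ∈ intPoly O) ∧
      (n + 1 ≤ N + 2 → numX W (n + 1) ∈ intPoly O ∧ denX W (n + 1) ∈ intPoly O) := by
  intro n hn
  induction n, hn using Nat.le_induction with
  | base =>
    refine ⟨fun _ => ⟨X_mem_intPoly, one_mem _⟩, fun _ => ⟨?_, ?_⟩⟩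
    · exact phiTwo_mem_intPoly W hb₄ hb₆ hb₈
    · exact psiSq_mem_intPoly W hb₂ hb₄ hb₆
  | succ m hm ih =>
    refine ⟨ih.2, fun hle => ?_⟩
    have hmN : m ≤ N := by omega
    obtain ⟨hA₀, hB₀⟩ := ih.1 (by omega)
    obtain ⟨hA, hB⟩ := ih.2 (by omega)
    have hG := good_seq W m hm
    have hB₀0 : denX W m ≠ 0 := by
      intro h
      have h' := hG.lcB
      rw [h, leadingCoeff_zero] at h'
      have hm0 : (m : F) ≠ 0 := by exact_mod_cast (by omega : m ≠ 0)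
      exact pow_ne_zero 2 hm0 h'.symm
    constructor
    · rw [numX_add_two W m hm]
      exact divByMonic_mem_intPoly (g2_mem_intPoly W hb₄ hb₆ hb₈ hA hB) hA₀ hG.monic
    · rw [denX_add_two W m hm]
      refine div_mem_intPoly (g0_mem_intPoly hA hB) hB₀ hB₀0 ?_
      rw [hG.lcB, ← inv_pow]
      exact pow_mem (hN m hm hmN) 2

/-- Coefficient form of `seq_mem_intPoly`. -/
theorem coeff_mem_seq (O : Subring F) (hb₂ : W.b₂ ∈ O) (hb₄ : W.b₄ ∈ O) (hb₆ : W.b₆ ∈ O)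
    (hb₈ : W.b₈ ∈ O) (N : ℕ) (hN : ∀ m : ℕ, 1 ≤ m → m ≤ N → ((m : F))⁻¹ ∈ O)
    (n : ℕ) (hn1 : 1 ≤ n) (hn : n ≤ N + 2) :
    (∀ i, (numX W n).coeff i ∈ O) ∧ (∀ i, (denX W n).coeff i ∈ O) := by
  obtain ⟨h1, h2⟩ := (seq_mem_intPoly W O hb₂ hb₄ hb₆ hb₈ N hN n hn1).1 hn
  exact ⟨(mem_intPoly_iff _).mp h1, (mem_intPoly_iff _).mp h2⟩

/-- Version with hypotheses on the `a`-invariants. -/
theorem coeff_mem_seq' (O : Subring F) (h₁ : W.a₁ ∈ O) (h₂ : W.a₂ ∈ O) (h₃ : W.a₃ ∈ O)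
    (h₄ : W.a₄ ∈ O) (h₆ : W.a₆ ∈ O) (N : ℕ)
    (hN : ∀ m : ℕ, 1 ≤ m → m ≤ N → ((m : F))⁻¹ ∈ O)
    (n : ℕ) (hn1 : 1 ≤ n) (hn : n ≤ N + 2) :
    (∀ i, (numX W n).coeff i ∈ O) ∧ (∀ i, (denX W n).coeff i ∈ O) := by
  obtain ⟨hb₂, hb₄, hb₆, hb₈⟩ := b_mem_of_a_mem W h₁ h₂ h₃ h₄ h₆
  exact coeff_mem_seq W O hb₂ hb₄ hb₆ hb₈ N hN n hn1 hn

end Seq

end Fermat.Agent.Lib.TorsionCard
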