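import Fermat.Agent.Lib.TorsionCard.Exact

set_option autoImplicit false

namespace Fermat.Agent.Lib.TorsionCard

open Polynomial WeierstrassCurve WeierstrassCurve.Affine

section Product

variable {F : Type*} [Field F] [DecidableEq F] (W : WeierstrassCurve.Affine F)
  [IsAlgClosed F] [CharZero F] [W.IsElliptic]

lemma denX_ne_zero (n : ℕ) (hn : 1 ≤ n) : denX W n ≠ 0 := by
  intro h
  have h' := (good_seq W n hn).lcB
  rw [h, leadingCoeff_zero] at h'
  have hn0 : (n : F) ≠ 0 := by exact_mod_cast (by omega : n ≠ 0)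
  exact pow_ne_zero 2 hn0 h'.symm

/-- The roots of `denX W n` are the `x`-coordinates of the nonzero `n`-torsion points. -/
lemma mem_roots_denX (n : ℕ) (hn : 1 ≤ n) (x : F) :
    x ∈ (denX W n).roots.toFinset ↔ ∃ P : W.Point, P ≠ 0 ∧ n • P = 0 ∧ HasXc W P x := by
  rw [Multiset.mem_toFinset, mem_roots (denX_ne_zero W n hn), IsRoot.def]
  constructor
  · intro h
    obtain ⟨y, hy⟩ := exists_nonsingular W two_ne_zero x
    exact ⟨_, (hasXc_some hy).ne_zero,
      (denX_eval_eq_zero_iff W n hn (hasXc_some hy)).mp h, hasXc_some hy⟩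
  · rintro ⟨P, -, hnP, hP⟩
    exact (denX_eval_eq_zero_iff W n hn hP).mpr hnP

lemma sq_dvd_denX (m : ℕ) (hm : 1 ≤ m) (hodd : Odd m) {x : F}
    (hx : (denX W (m + 2)).eval x = 0) : (X - C x) ^ 2 ∣ denX W (m + 2) := by
  have hid := denX_mul_denX W m hm
  obtain ⟨y, hy⟩ := exists_nonsingular W two_ne_zero x
  have hP := hasXc_some hy
  generalize Point.some x y hy = P at hP
  have hPn : (m + 2) • P = 0 := (denX_eval_eq_zero_iff W (m + 2) (by omega) hP).mp hx
  have hBm : (denX W m).eval x ≠ 0 := by
    rw [Ne, denX_eval_eq_zero_iff W m hm hP]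
    intro hPm
    have h2 : 2 • P = 0 := by
      have h := add_nsmul P m 2
      rw [hPn, hPm, zero_add] at h
      exact h.symm
    obtain ⟨j, rfl⟩ := hodd
    have h3 : (2 * j + 1) • P = P := by
      rw [add_nsmul, mul_nsmul, h2, smul_zero, zero_add, one_nsmul]
    rw [h3] at hPm
    exact hP.ne_zero hPm
  have hD : (numX W (m + 1) - X * denX W (m + 1)).eval x = 0 := by
    have h := congrArg (Polynomial.eval x) hid
    rw [eval_mul, hx, mul_zero, eval_pow] at h
    exact (pow_eq_zero_iff (n := 2) (by norm_num)).mp h.symm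
  have hdvd : (X - C x) ∣ numX W (m + 1) - X * denX W (m + 1) := dvd_iff_isRoot.mpr hD
  have hdvd2 : (X - C x) ^ 2 ∣ denX W m * denX W (m + 2) := by
    rw [hid]
    exact pow_dvd_pow_of_dvd hdvd 2
  have hcop : IsCoprime (X - C x) (denX W m) := by
    apply isCoprime_of_no_common_root
    intro a h1 h2
    have ha : a = x := by simpa [sub_eq_zero] using h1
    rw [ha] at h2
    exact hBm h2
  exact (hcop.pow_left (m := 2)).dvd_of_dvd_mul_left hdvd2

/-- For odd `n`, `denX W n = n² ∏ (X - x)²`, the product over the `(n² - 1)/2` distinct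
`x`-coordinates of the nonzero `n`-torsion points. -/
theorem denX_eq_prod (n : ℕ) (hn : Odd n) :
    ∃ T : Finset F, (∀ x, x ∈ T ↔ ∃ P : W.Point, P ≠ 0 ∧ n • P = 0 ∧ HasXc W P x) ∧
      2 * T.card + 1 = n ^ 2 ∧
      denX W n = C ((n : F) ^ 2) * ∏ x ∈ T, (X - C x) ^ 2 := by
  classical
  rcases Nat.lt_or_ge n 3 with h3 | h3
  · obtain rfl : n = 1 := by
      obtain ⟨k, rfl⟩ := hn
      omega
    refine ⟨∅, ?_, by simp, by simp⟩
    intro x
    simp only [Finset.notMem_empty, one_smul, false_iff, not_exists, not_and]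
    intro P hP0 hP
    exact absurd hP hP0
  · obtain ⟨m, rfl⟩ : ∃ m, n = m + 2 := ⟨n - 2, by omega⟩
    have hm : 1 ≤ m := by omega
    have hodd : Odd m := by
      rcases hn with ⟨k, hk⟩
      exact ⟨k - 1, by omega⟩
    have hn1 : 1 ≤ m + 2 := by omega
    have hB0 : denX W (m + 2) ≠ 0 := denX_ne_zero W (m + 2) hn1
    have hG := good_seq W (m + 2) hn1
    obtain ⟨T, hT⟩ : ∃ T : Finset F, T = (denX W (m + 2)).roots.toFinset := ⟨_, rfl⟩
    have hmemT : ∀ x, x ∈ T ↔ ∃ P : W.Point, P ≠ 0 ∧ (m + 2) • P = 0 ∧ HasXc W P x := by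
      intro x
      rw [hT]
      exact mem_roots_denX W (m + 2) hn1 x
    have hcount2 : ∀ x ∈ T, 2 ≤ (denX W (m + 2)).roots.count x := by
      intro x hx
      rw [hT, Multiset.mem_toFinset, mem_roots hB0, IsRoot.def] at hx
      rw [count_roots]
      exact (le_rootMultiplicity_iff hB0).mpr (sq_dvd_denX W m hm hodd hx)
    have hsum : ∑ x ∈ T, (denX W (m + 2)).roots.count x = (m + 2) ^ 2 - 1 := by
      rw [hT, Multiset.toFinset_sum_count_eq,
        ← (IsAlgClosed.splits (denX W (m + 2))).natDegree_eq_card_roots]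
      have := hG.degB
      omega
    have hcardT : (m + 2) ^ 2 ≤ 2 * T.card + 1 := by
      rw [← card_torsion W (m + 2) (by omega)]
      have hex : ∀ x : F, ∃ Q : W.Point, HasXc W Q x := fun x => by
        obtain ⟨y, hy⟩ := exists_nonsingular W two_ne_zero x
        exact ⟨_, hasXc_some hy⟩
      choose ref href using hex
      let f : {P : W.Point // (m + 2) • P = 0} → Option (T × Bool) := fun P =>
        if h : P.1 = 0 then none
        else some (⟨xOf W P.1, (hmemT _).mpr ⟨P.1, h, P.2, hasXc_xOf h⟩⟩,
          decide (P.1 = ref (xOf W P.1)))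
      have hf : Function.Injective f := by
        rintro ⟨P, hP⟩ ⟨P', hP'⟩ he
        simp only [f] at he
        by_cases h : P = 0
        · by_cases h' : P' = 0
          · exact Subtype.ext (h.trans h'.symm)
          · simp [h, h'] at he
        · by_cases h' : P' = 0
          · simp [h, h'] at he
          · simp only [h, h', dite_false, Option.some.injEq, Prod.mk.injEq, Subtype.mk.injEq,
              decide_eq_decide] at he
            obtain ⟨hx, hd⟩ := he
            have h1 := hasXc_xOf h
            have h2 := hasXc_xOf h'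
            rw [← hx] at h2 hd
            apply Subtype.ext
            rcases h1.eq_or_eq_neg (href _) with e | e
            · exact e.trans (hd.mp e).symm
            · rcases h2.eq_or_eq_neg (href _) with e' | e'
              · exact (hd.mpr e').trans e'.symm
              · exact e.trans e'.symm
      have hle := Nat.card_le_card_of_injective f hf
      rw [Nat.card_eq_fintype_card (α := Option (T × Bool)), Fintype.card_option,
        Fintype.card_prod, Fintype.card_bool, Fintype.card_coe] at hle
      omega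
    have hle : 2 * T.card ≤ (m + 2) ^ 2 - 1 := by
      calc 2 * T.card = ∑ _x ∈ T, 2 := by simp [mul_comm]
        _ ≤ ∑ x ∈ T, (denX W (m + 2)).roots.count x := Finset.sum_le_sum hcount2
        _ = (m + 2) ^ 2 - 1 := hsum
    have hpos : 0 < (m + 2) ^ 2 := by positivity
    have hcard : 2 * T.card + 1 = (m + 2) ^ 2 := by omega
    have hcount : ∀ x ∈ T, (denX W (m + 2)).roots.count x = 2 := by
      by_contra hne
      push Not at hne
      obtain ⟨x₀, hx₀, hne⟩ := hne
      have hlt : ∑ _x ∈ T, 2 < ∑ x ∈ T, (denX W (m + 2)).roots.count x :=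
        Finset.sum_lt_sum hcount2 ⟨x₀, hx₀, lt_of_le_of_ne (hcount2 x₀ hx₀) (Ne.symm hne)⟩
      rw [hsum] at hlt
      simp only [Finset.sum_const, smul_eq_mul] at hlt
      omega
    have hroots : (denX W (m + 2)).roots = T.val + T.val := by
      ext x
      rw [Multiset.count_add]
      by_cases hx : x ∈ T
      · rw [hcount x hx, Multiset.count_eq_one_of_mem T.nodup hx]
      · have hx' : x ∉ (denX W (m + 2)).roots := by
          intro h
          exact hx (by rw [hT]; exact Multiset.mem_toFinset.mpr h)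
        rw [Multiset.count_eq_zero_of_notMem hx', Multiset.count_eq_zero_of_notMem hx]
    refine ⟨T, hmemT, hcard, ?_⟩
    have hprod := (IsAlgClosed.splits (denX W (m + 2))).eq_prod_roots
    rw [hG.lcB, hroots] at hprod
    rw [Multiset.map_add, Multiset.prod_add, ← sq] at hprod
    rw [Finset.prod_pow, Finset.prod_eq_multiset_prod]
    exact hprod

end Product

end Fermat.Agent.Lib.TorsionCard
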